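/-
PROJECT R (S43), block T1, brick (R)_n + (K) (helper26): THE TWO REDUCTIONS OF THE FINITE PART OF
`J₀(M q)[n]` AT `A ∣ q`, `q ∤ M`, FOR A TORSION ORDER `n ≠ 0` INDEPENDENT OF THE FRAME PRIME `q`.

This is the `(n, q)`-twin of the instance half of `S44/Fin/Red` (where the torsion order is the
frame prime).  The abstract half of `S44/Fin/Red` (`HasRed R n`, `redSub`, `rho`,
`rho_eq_zero_iff`, `nsmul_rho`, `exists_oneUnit_of_principal`) is already generic in `n` and is
imported as it is.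

* `HasRed1N F n x Eb`, `HasRed2N F n x Eb`, `finRedN F n`, `rho1N`, `rho2N`;
* `oneUnit_le_finRedN`, `rho1N_eq_zero_of_mem_oneUnit`, `rho2N_eq_zero_of_mem_oneUnit`;
* `mem_oneUnit_of_rho_eq_zero` : **(K)** both reductions trivial ⇒ `1`-unit class of level `n`;
* `smul_mem_finRedN`, `rho1N_smul`, `rho2N_smul` : invariance under the inertia group of `A`.
-/
import Fermat.Agent.S44.Fin.Red

set_option autoImplicit false
set_option linter.unusedSectionVars false
set_option linter.unusedVariables false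
set_option linter.style.haveILetI false
set_option synthInstance.maxHeartbeats 400000

noncomputable section

namespace Fermat.Agent.S43.T1.Fin.RedN

open ModularCurve AlgebraicCurve IsLocalRing
open Fermat.Agent.S34.NodalDefs Fermat.Agent.S34.Z1X0 Fermat.Agent.S34.Z1Abstract
open Fermat.Agent.S34.CoreZX0Datum
open Fermat.Agent.S33.X0.Frame Fermat.Agent.S33.KP.OneUnit
open Fermat.Agent.S44.Core.NodeOrd
open Fermat.Agent.S44.Fin.Red

local notation "Qbar" => AlgebraicClosure ℚ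

attribute [local instance 2000] Fermat.Agent.S34.EulerX0.algResFk

/-- local instance: principal divisors on `E` -/
local instance instPDBar (N : ℕ) [NeZero N] :
    HasPrincipalDivisors Qbar ↥(modularFunctionFieldBar N) :=
  Fermat.Agent.S18.A.Instances.hasPrincipalDivisors_bar N

/-- local instance: principal divisors on the components -/
local instance instPDFk (A : ValuationSubring Qbar) (N : ℕ) [NeZero N] :
    HasPrincipalDivisors (ResidueField ↥A) ↥(modularFunctionFieldFullC (ResidueField ↥A) N) :=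
  Fermat.Agent.S37.ReductionInputs.hasPrincipalDivisors_Fk A N

/-- local instance: the residue field is algebraically closed -/
local instance instACk (A : ValuationSubring Qbar) : IsAlgClosed (ResidueField ↥A) :=
  Fermat.Agent.S18.ResidueBasics.isAlgClosed_residueField A

variable {q : ℕ} [hq : Fact q.Prime] {M : ℕ} [NeZero M] {A : ValuationSubring Qbar} [NeZero q]
variable {hA : A.LiesOverPrime q} {hqM : ¬ q ∣ M}

local instance instNeZeroMul : NeZero (M * q) :=
  ⟨Nat.mul_ne_zero (NeZero.ne M) (NeZero.ne q)⟩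

/-- `Eb` is a reduction of the `n`-torsion class `x` on the first component -/
def HasRed1N (F : ChartFrame hA hqM) (n : ℕ) (x : JZero (M * q))
    (Eb : Divisor (ResidueField ↥A) ↥(modularFunctionFieldFullC (ResidueField ↥A) M)) : Prop :=
  HasRed F.X.N.R1.toBranch n x Eb

/-- `Eb` is a reduction of the `n`-torsion class `x` on the second component -/
def HasRed2N (F : ChartFrame hA hqM) (n : ℕ) (x : JZero (M * q))
    (Eb : Divisor (ResidueField ↥A) ↥(modularFunctionFieldFullC (ResidueField ↥A) M)) : Prop :=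
  HasRed F.X.N.R2.toBranch n x Eb

/-- **the finite part of level `n` with both reductions**: the classes `[D]`, `n D = div u`, such
that the divisors of the two reductions of `u` are divisible by `n` -/
def finRedN (F : ChartFrame hA hqM) (n : ℕ) : AddSubgroup (JZero (M * q)) :=
  redSub F.X.N.R1.toBranch n ⊓ redSub F.X.N.R2.toBranch n

theorem mem_finRedN {F : ChartFrame hA hqM} {n : ℕ} {x : JZero (M * q)} :
    x ∈ finRedN F n ↔ (∃ Eb, HasRed1N F n x Eb) ∧ ∃ Eb, HasRed2N F n x Eb := Iff.rfl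

/-- **the first reduction map** `finRedN → Pic⁰` of the first component -/
def rho1N (F : ChartFrame hA hqM) (n : ℕ) (hn : n ≠ 0) :
    finRedN F n →+ Pic0 (ResidueField ↥A) ↥(modularFunctionFieldFullC (ResidueField ↥A) M) :=
  (rho F.X.N.R1.toBranch n constE hn).comp (AddSubgroup.inclusion inf_le_left)

/-- **the second reduction map** `finRedN → Pic⁰` of the second component -/
def rho2N (F : ChartFrame hA hqM) (n : ℕ) (hn : n ≠ 0) :
    finRedN F n →+ Pic0 (ResidueField ↥A) ↥(modularFunctionFieldFullC (ResidueField ↥A) M) :=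
  (rho F.X.N.R2.toBranch n constE hn).comp (AddSubgroup.inclusion inf_le_right)

variable {F : ChartFrame hA hqM} {n : ℕ} (hn : n ≠ 0)

theorem rho1N_eq (x : finRedN F n)
    {Eb : Divisor (ResidueField ↥A) ↥(modularFunctionFieldFullC (ResidueField ↥A) M)}
    (h : HasRed1N F n (x : JZero (M * q)) Eb) :
    rho1N F n hn x = Pic0.mk ⟨Eb, HasRed.degree_eq_zero hn h⟩ :=
  rho_eq constE hn (AddSubgroup.inclusion inf_le_left x) h

theorem rho2N_eq (x : finRedN F n)
    {Eb : Divisor (ResidueField ↥A) ↥(modularFunctionFieldFullC (ResidueField ↥A) M)}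
    (h : HasRed2N F n (x : JZero (M * q)) Eb) :
    rho2N F n hn x = Pic0.mk ⟨Eb, HasRed.degree_eq_zero hn h⟩ :=
  rho_eq constE hn (AddSubgroup.inclusion inf_le_right x) h

theorem rho1N_eq_zero_iff (x : finRedN F n)
    {Eb : Divisor (ResidueField ↥A) ↥(modularFunctionFieldFullC (ResidueField ↥A) M)}
    (h : HasRed1N F n (x : JZero (M * q)) Eb) :
    rho1N F n hn x = 0 ↔ Eb ∈ Divisor.principal (K := ResidueField ↥A)
      (F := ↥(modularFunctionFieldFullC (ResidueField ↥A) M)) :=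
  rho_eq_zero_iff constE hn (AddSubgroup.inclusion inf_le_left x) h

theorem rho2N_eq_zero_iff (x : finRedN F n)
    {Eb : Divisor (ResidueField ↥A) ↥(modularFunctionFieldFullC (ResidueField ↥A) M)}
    (h : HasRed2N F n (x : JZero (M * q)) Eb) :
    rho2N F n hn x = 0 ↔ Eb ∈ Divisor.principal (K := ResidueField ↥A)
      (F := ↥(modularFunctionFieldFullC (ResidueField ↥A) M)) :=
  rho_eq_zero_iff constE hn (AddSubgroup.inclusion inf_le_right x) h

/-- the reductions are killed by `n` -/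
theorem nsmul_rho1N (x : finRedN F n) : n • rho1N F n hn x = 0 :=
  nsmul_rho constE hn (AddSubgroup.inclusion inf_le_left x)

theorem nsmul_rho2N (x : finRedN F n) : n • rho2N F n hn x = 0 :=
  nsmul_rho constE hn (AddSubgroup.inclusion inf_le_right x)

/-- the finite part of level `n` is killed by `n` -/
theorem nsmul_eq_zero_of_mem_finRedN {x : JZero (M * q)} (hx : x ∈ finRedN F n) : n • x = 0 := by
  obtain ⟨⟨Eb, h⟩, -⟩ := hx
  exact h.nsmul_eq_zero

/-- the `1`-unit classes of level `n` lie in the finite part, with both reductions `0` -/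
theorem hasRedN_of_mem_oneUnit {y : JZero (M * q)} (hy : y ∈ oneUnit hA hqM n) :
    HasRed1N F n y 0 ∧ HasRed2N F n y 0 := by
  obtain ⟨D, u, rfl, hu, h1, h2, hD⟩ := exists_strict_of_mem_oneUnit hA hqM hy
  have h1' : IsOneUnit F.X.N.R1.O u := by rw [F.X.O1_eq]; exact h1
  have h2' : IsOneUnit F.X.N.R2.O u := by rw [F.X.O2_eq]; exact h2
  obtain ⟨v1, hv1, hv1red⟩ := exists_unit_of_isOneUnit F.X.N.R1.toBranch h1'
  obtain ⟨v2, hv2, hv2red⟩ := exists_unit_of_isOneUnit F.X.N.R2.toBranch h2'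
  refine ⟨⟨D, v1, rfl, fun P => ?_, fun Q => ?_⟩, ⟨D, v2, rfl, fun P => ?_, fun Q => ?_⟩⟩
  · rw [hv1]
    exact (hD P).symm
  · rw [hv1red, Place.ord_one]
    simp
  · rw [hv2]
    exact (hD P).symm
  · rw [hv2red, Place.ord_one]
    simp

theorem oneUnit_le_finRedN (F : ChartFrame hA hqM) (n : ℕ) :
    oneUnit hA hqM n ≤ finRedN F n := fun y hy =>
  ⟨⟨0, (hasRedN_of_mem_oneUnit hy).1⟩, ⟨0, (hasRedN_of_mem_oneUnit hy).2⟩⟩

/-- the `1`-unit classes have trivial reductions -/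
theorem rho1N_eq_zero_of_mem_oneUnit (x : finRedN F n)
    (hx : (x : JZero (M * q)) ∈ oneUnit hA hqM n) : rho1N F n hn x = 0 :=
  (rho1N_eq_zero_iff hn x (hasRedN_of_mem_oneUnit hx).1).mpr (zero_mem _)

theorem rho2N_eq_zero_of_mem_oneUnit (x : finRedN F n)
    (hx : (x : JZero (M * q)) ∈ oneUnit hA hqM n) : rho2N F n hn x = 0 :=
  (rho2N_eq_zero_iff hn x (hasRedN_of_mem_oneUnit hx).2).mpr (zero_mem _)

/-- **(K): the kernel of the two reductions is the group of `1`-unit classes of level `n`** (the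
reductions of the Gauss rings being onto the function fields of the components) -/
theorem mem_oneUnit_of_rho_eq_zero (hs1 : Function.Surjective F.X.N.R1.red)
    (hs2 : Function.Surjective F.X.N.R2.red) (x : finRedN F n) (h1 : rho1N F n hn x = 0)
    (h2 : rho2N F n hn x = 0) : (x : JZero (M * q)) ∈ oneUnit hA hqM n := by
  obtain ⟨⟨Eb1, hx1⟩, ⟨Eb2, hx2⟩⟩ := x.2
  have hp1 := (rho1N_eq_zero_iff hn x hx1).mp h1
  have hp2 := (rho2N_eq_zero_iff hn x hx2).mp h2
  have hpos : 0 < n := Nat.pos_of_ne_zero hn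
  have hne : F.X.N.R1.O ≠ F.X.N.R2.O := by
    rw [F.X.O1_eq, F.X.O2_eq]
    exact V1X0_ne_V2X0 hA hqM
  have ha1 : Fermat.Agent.S34.WeakApprox.Arch F.X.N.R1.O := by
    rw [F.X.O1_eq]
    exact arch_VX0 hA hqM 0
  have ha2 : Fermat.Agent.S34.WeakApprox.Arch F.X.N.R2.O := by
    rw [F.X.O2_eq]
    exact arch_VX0 hA hqM 1
  have ht1 : F.X.N.R1.O ≠ ⊤ := by
    rw [F.X.O1_eq]
    exact V_ne_top hA hqM (comap_VX0 hA hqM 0)
  have ht2 : F.X.N.R2.O ≠ ⊤ := by
    rw [F.X.O2_eq]
    exact V_ne_top hA hqM (comap_VX0 hA hqM 1)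
  obtain ⟨D, u, h, hxD, hu, hh, ⟨ho1, ho2⟩, hD⟩ :=
    exists_oneUnit_of_principal F.X.N.R1.toBranch F.X.N.R2.toBranch hne ha1 ha2 ht1 ht2 constE
      (constk F) (constk F) (fun c => IsAlgClosed.exists_pow_nat_eq c hpos)
      (fun c => IsAlgClosed.exists_pow_nat_eq c hpos) hs1 hs2 hn hx1 hx2 hp1 hp2
  rw [F.X.O1_eq] at ho1
  rw [F.X.O2_eq] at ho2
  exact (mem_oneUnit hA hqM n _).mpr ⟨D, u, h, hxD, hu, hh, ⟨ho1, ho2⟩, hD⟩

/-! ### Invariance under the inertia group -/

/-- the first reduction does not change under the inertia group -/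
theorem HasRed1N.smul {σ : Qbar ≃ₐ[ℚ] Qbar} (hσ : σ ∈ A.inertiaSubgroupIn ℚ)
    {x : JZero (M * q)}
    {Eb : Divisor (ResidueField ↥A) ↥(modularFunctionFieldFullC (ResidueField ↥A) M)}
    (hx : HasRed1N F n x Eb) : HasRed1N F n (σ • x) Eb := by
  obtain ⟨D, u, rfl, hD, hE⟩ := hx
  obtain ⟨g, hg⟩ : ∃ g : SemilinearAut Qbar ↥(modularFunctionFieldBar (M * q)),
      g = arithmeticGalois (modularFunctionFieldFull (M * q)) σ := ⟨_, rfl⟩
  have hm1 : ∀ y : ↥(modularFunctionFieldBar (M * q)), y ∈ F.X.N.R1.O → g • y ∈ F.X.N.R1.O := by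
    intro y hy
    rw [F.X.O1_eq] at hy ⊢
    rw [hg]
    exact (smul_mem_V1X0_iff hA hqM hσ y).mpr hy
  have hs1 : ∀ y : ↥(modularFunctionFieldBar (M * q)), y ∈ F.X.N.R1.O →
      g • y - y ∈ F.X.N.R1.O.nonunits := by
    intro y hy
    rw [F.X.O1_eq] at hy ⊢
    rw [hg]
    exact smul_sub_mem_nonunits₁ hA hqM hσ hy
  obtain ⟨v, hv, hvred⟩ := exists_unit_smul F.X.N.R1.toBranch g hm1 hs1 u
  refine ⟨SemilinearAut.degZeroSMulHom g D, v, ?_, fun P => ?_, fun Q => ?_⟩
  · rw [galois_smul_pic0_def, ← hg, SemilinearAut.pic0_smul_mk]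
  · have h1 := hD (g⁻¹ • P)
    rw [hv, Fermat.Agent.S34.KummerZ.ord_smul_eq g P, ← h1, SemilinearAut.coe_degZeroSMulHom,
      SemilinearAut.divisor_smul_apply]
  · rw [hvred]
    exact hE Q

/-- the second reduction does not change under the inertia group -/
theorem HasRed2N.smul {σ : Qbar ≃ₐ[ℚ] Qbar} (hσ : σ ∈ A.inertiaSubgroupIn ℚ)
    {x : JZero (M * q)}
    {Eb : Divisor (ResidueField ↥A) ↥(modularFunctionFieldFullC (ResidueField ↥A) M)}
    (hx : HasRed2N F n x Eb) : HasRed2N F n (σ • x) Eb := by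
  obtain ⟨D, u, rfl, hD, hE⟩ := hx
  obtain ⟨g, hg⟩ : ∃ g : SemilinearAut Qbar ↥(modularFunctionFieldBar (M * q)),
      g = arithmeticGalois (modularFunctionFieldFull (M * q)) σ := ⟨_, rfl⟩
  have hm1 : ∀ y : ↥(modularFunctionFieldBar (M * q)), y ∈ F.X.N.R2.O → g • y ∈ F.X.N.R2.O := by
    intro y hy
    rw [F.X.O2_eq] at hy ⊢
    rw [hg]
    exact (smul_mem_V2X0_iff hA hqM hσ y).mpr hy
  have hs1 : ∀ y : ↥(modularFunctionFieldBar (M * q)), y ∈ F.X.N.R2.O →
      g • y - y ∈ F.X.N.R2.O.nonunits := by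
    intro y hy
    rw [F.X.O2_eq] at hy ⊢
    rw [hg]
    exact smul_sub_mem_nonunits₂ hA hqM hσ hy
  obtain ⟨v, hv, hvred⟩ := exists_unit_smul F.X.N.R2.toBranch g hm1 hs1 u
  refine ⟨SemilinearAut.degZeroSMulHom g D, v, ?_, fun P => ?_, fun Q => ?_⟩
  · rw [galois_smul_pic0_def, ← hg, SemilinearAut.pic0_smul_mk]
  · have h1 := hD (g⁻¹ • P)
    rw [hv, Fermat.Agent.S34.KummerZ.ord_smul_eq g P, ← h1, SemilinearAut.coe_degZeroSMulHom,
      SemilinearAut.divisor_smul_apply]
  · rw [hvred]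
    exact hE Q

/-- the finite part of level `n` is stable under the inertia group -/
theorem smul_mem_finRedN {σ : Qbar ≃ₐ[ℚ] Qbar} (hσ : σ ∈ A.inertiaSubgroupIn ℚ)
    {x : JZero (M * q)} (hx : x ∈ finRedN F n) : σ • x ∈ finRedN F n := by
  obtain ⟨⟨Eb1, h1⟩, ⟨Eb2, h2⟩⟩ := hx
  exact ⟨⟨Eb1, HasRed1N.smul hσ h1⟩, ⟨Eb2, HasRed2N.smul hσ h2⟩⟩

/-- the first reduction map is invariant under the inertia group -/
theorem rho1N_smul {σ : Qbar ≃ₐ[ℚ] Qbar} (hσ : σ ∈ A.inertiaSubgroupIn ℚ) (x : finRedN F n) :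
    rho1N F n hn ⟨σ • (x : JZero (M * q)), smul_mem_finRedN hσ x.2⟩ = rho1N F n hn x := by
  obtain ⟨⟨Eb1, h1⟩, -⟩ := x.2
  rw [rho1N_eq hn x h1,
    rho1N_eq hn ⟨σ • (x : JZero (M * q)), smul_mem_finRedN hσ x.2⟩ (HasRed1N.smul hσ h1)]

/-- the second reduction map is invariant under the inertia group -/
theorem rho2N_smul {σ : Qbar ≃ₐ[ℚ] Qbar} (hσ : σ ∈ A.inertiaSubgroupIn ℚ) (x : finRedN F n) :
    rho2N F n hn ⟨σ • (x : JZero (M * q)), smul_mem_finRedN hσ x.2⟩ = rho2N F n hn x := by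
  obtain ⟨-, ⟨Eb2, h2⟩⟩ := x.2
  rw [rho2N_eq hn x h2,
    rho2N_eq hn ⟨σ • (x : JZero (M * q)), smul_mem_finRedN hσ x.2⟩ (HasRed2N.smul hσ h2)]

/-- for `n = q` the twin is the original -/
theorem finRedN_self (F : ChartFrame hA hqM) : finRedN F q = finRed F := rfl

end Fermat.Agent.S43.T1.Fin.RedN

end
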