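/-
PROJECT R (S43), block T1, brick (H) (helper26): THE HECKE OPERATORS `T_r` (`r ∤ M q`) AND THE TWO
REDUCTIONS OF THE FINITE PART OF `J₀(M q)[n]`, FOR A TORSION ORDER `n ≠ 0` INDEPENDENT OF THE FRAME
PRIME `q`.

This is the `(n, q)`-twin of `S44/Fin/RedHecke` + `S44/Fin/RedHecke2` (there `n = q`).  The
frame-only stock of main (`heckeDivK`, `heckePic0K`, `reductionModL_hecke`, `RedStd`, `RedStd2`,
`surjective_red1`, `surjective_red2`, `exists_chartFrame_redStd₂`) is imported as it is; the only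
twins needed below it are `exists_hecke_redN`, `exists_hecke_red₂N` (the proofs of
`Eis/HeckeNode.exists_hecke_red` and `Eis/HeckeWq.exists_hecke_red₂` never use that the multiplier
of the divisor is the frame prime).

* `exists_hecke_redN`, `exists_hecke_red₂N` : **(E1)**, **(E1')** with multiplier `n`;
* `HasRed1N.hecke`, `HasRed2N.hecke` : `HasRed_iN F n x Eb → HasRed_iN F n (T_r x) (heckeDivK Eb)`;
* `heckePic0K_mk_of_hasRed1N`, `heckePic0K_mk_of_hasRed2N` : eigenclasses reduce to eigenclasses;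
* `reductionModL_hecke_eq_rho1N`, `reductionModL_hecke_eq_rho2N` : **(h2)** at `n`;
* `hecke_mem_finRedN`, `rho1N_hecke`, `rho2N_hecke` : `T_r` preserves `finRedN` and commutes with
  the two reductions (`heckePic0K` on the target);
* `mem_oneUnit_of_rho_eq_zero_of_redStd` : **(K)** for a standard frame, no side hypothesis.
-/
import Fermat.Agent.S43.T1.Fin.RedN
import Fermat.Agent.S44.Fin.RedHecke2

set_option autoImplicit false
set_option linter.unusedSectionVars false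
set_option linter.unusedVariables false
set_option linter.style.haveILetI false
set_option synthInstance.maxHeartbeats 400000

noncomputable section

namespace Fermat.Agent.S43.T1.Fin.HeckeN

open ModularCurve AlgebraicCurve IsLocalRing
open Fermat.Agent.S34.NodalDefs Fermat.Agent.S34.CoreZX0Datum
open Fermat.Agent.S33.X0.Frame
open Fermat.Agent.S34.GaussPairX0
open Fermat.Agent.S44.Fin.Red Fermat.Agent.S44.Fin.RedHecke Fermat.Agent.S44.Eis.HeckeK
open Fermat.Agent.S44.Eis.HeckeNode Fermat.Agent.S44.Eis.HeckeWq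
open Fermat.Agent.S18.GaussFromH Fermat.Agent.S15.A.HeckeRedB
open Fermat.Agent.S37.Hecke.Principal Fermat.Agent.S37.ES.NormRed
open Fermat.Agent.S43.T1.Fin.RedN

local notation "Qbar" => AlgebraicClosure ℚ

attribute [local instance 2000] Fermat.Agent.S34.EulerX0.algResFk

/-- local instance: principal divisors on `E` -/
local instance instPDBar (N : ℕ) [NeZero N] :
    HasPrincipalDivisors Qbar ↥(modularFunctionFieldBar N) :=
  Fermat.Agent.S18.A.Instances.hasPrincipalDivisors_bar N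

/-- local instance: principal divisors on the components -/
local instance instPDFk (A : ValuationSubring Qbar) (N : ℕ) [NeZero N] :
    HasPrincipalDivisors (ResidueField ↥A) ↥(modularFunctionFieldFullC (ResidueField ↥A) N) :=
  Fermat.Agent.S37.ReductionInputs.hasPrincipalDivisors_Fk A N

/-- local instance: the residue field is algebraically closed -/
local instance instACk (A : ValuationSubring Qbar) : IsAlgClosed (ResidueField ↥A) :=
  Fermat.Agent.S18.ResidueBasics.isAlgClosed_residueField A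

/-- local instance: a prime is not zero -/
local instance instNeZeroPrimes (r : Nat.Primes) : NeZero (r : ℕ) := ⟨r.2.ne_zero⟩

variable {q : ℕ} [hq : Fact q.Prime] {M : ℕ} [NeZero M] {A : ValuationSubring Qbar} [NeZero q]
variable {hA : A.LiesOverPrime q} {hqM : ¬ q ∣ M}

local instance instNeZeroMul : NeZero (M * q) :=
  ⟨Nat.mul_ne_zero (NeZero.ne M) (NeZero.ne q)⟩

/-! ### (E1), (E1') with an arbitrary multiplier -/

set_option maxHeartbeats 1600000 in
/-- **(E1) at `n`: `T_r` and the first reduction.**  If `n • D = div u` with `u` a unit of the first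
Gauss ring, then `T_r [D] = [D']` with `n • D' = div u'`, `u'` a unit of the first Gauss ring, and
`div (red u') = heckeDivK (div (red u))` at every place of the component. -/
theorem exists_hecke_redN (F : ChartFrame hA hqM) (hF : RedStd F) (r : Nat.Primes)
    (hrq : (r : ℕ) ≠ q) (hrM : ¬ (r : ℕ) ∣ M) (n : ℕ)
    (D : Divisor.degZero (K := Qbar) (F := ↥(modularFunctionFieldBar (M * q))))
    (u : (F.X.N.R1.O)ˣ)
    (hD : ∀ P : Place Qbar ↥(modularFunctionFieldBar (M * q)),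
      (n : ℤ) * (D : Divisor Qbar ↥(modularFunctionFieldBar (M * q))) P =
        P.ord (((u : F.X.N.R1.O)) : ↥(modularFunctionFieldBar (M * q)))) :
    ∃ (D' : Divisor.degZero (K := Qbar) (F := ↥(modularFunctionFieldBar (M * q))))
      (u' : (F.X.N.R1.O)ˣ),
      Pic0.mk D' = heckeOperatorBar (M * q) r (Pic0.mk D) ∧
      (∀ P : Place Qbar ↥(modularFunctionFieldBar (M * q)),
        (n : ℤ) * (D' : Divisor Qbar ↥(modularFunctionFieldBar (M * q))) P =
          P.ord (((u' : F.X.N.R1.O)) : ↥(modularFunctionFieldBar (M * q)))) ∧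
      ∀ Δ : Divisor (ResidueField ↥A) ↥(modularFunctionFieldFullC (ResidueField ↥A) M),
        (∀ Q, Δ Q = Q.ord (F.X.N.R1.red u)) →
        ∀ Q, Q.ord (F.X.N.R1.red u') = heckeDivK M hqM A hA r Δ Q := by
  obtain ⟨D', hD', hcoe⟩ :=
    Fermat.Agent.S35.DegeneracyHecke.coe_degZero_of_hecke_mk (N := M * q) r D
  have hu2 : ((u : F.X.N.R1.O) : ↥(modularFunctionFieldBar (M * q))) ∈ V₁ hA hqM :=
    mem_V₁_of_mem F (u : F.X.N.R1.O).2
  have hured : F.X.N.R1.red (u : F.X.N.R1.O) = red₁ hA hqM ⟨_, hu2⟩ := hF _ _ hu2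
  have hu0 : F.X.N.R1.red (u : F.X.N.R1.O) ≠ 0 := by
    intro h0
    exact ((F.X.N.R1.red_eq_zero_iff _).mp h0) u.isUnit
  have hh : red₁ hA hqM ⟨_, hu2⟩ ≠ 0 := hured ▸ hu0
  obtain ⟨hmem, hne, hord⟩ := exists_red₁_normBeta hA hqM (r := (r : ℕ)) r.2 hrq hrM ⟨_, hu2⟩ hh
  have hmem1 : normBeta (M * q) r ((u : F.X.N.R1.O) : ↥(modularFunctionFieldBar (M * q))) ∈
      F.X.N.R1.O := mem_of_mem_V₁ F hmem
  have hred' : F.X.N.R1.red ⟨_, hmem1⟩ = red₁ hA hqM ⟨_, hmem⟩ := hF _ _ hmem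
  have hunit : IsUnit (⟨_, hmem1⟩ : F.X.N.R1.O) := by
    by_contra hnu
    exact hne (hred' ▸ (F.X.N.R1.red_eq_zero_iff _).mpr hnu)
  refine ⟨D', hunit.unit, hD'.symm, fun P => ?_, fun Δ hΔ Q => ?_⟩
  · have hune : ((u : F.X.N.R1.O) : ↥(modularFunctionFieldBar (M * q))) ≠ 0 := by
      intro h0
      apply hu0
      have : (u : F.X.N.R1.O) = 0 := Subtype.ext h0
      rw [this, map_zero]
    have hnD : ∀ v : Place Qbar ↥(modularFunctionFieldBar (M * q)),
        ((n : ℤ) • (D : Divisor Qbar ↥(modularFunctionFieldBar (M * q)))) v =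
          v.ord ((u : F.X.N.R1.O) : ↥(modularFunctionFieldBar (M * q))) := fun v => by
      rw [Finsupp.smul_apply, smul_eq_mul]
      exact hD v
    have h1 := heckeDiv_principal (M * q) (r : ℕ) hune hnD P
    have hcoe' : (D' : Divisor Qbar ↥(modularFunctionFieldBar (M * q))) =
        Fermat.Agent.S37.Hecke.Principal.heckeDiv (M * q) (r : ℕ)
          (D : Divisor Qbar ↥(modularFunctionFieldBar (M * q))) := hcoe
    rw [map_zsmul, Finsupp.smul_apply, smul_eq_mul, ← hcoe'] at h1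
    rw [IsUnit.unit_spec]
    exact h1
  · rw [IsUnit.unit_spec, hred']
    exact hord Δ (fun Q' => by rw [hΔ Q', hured]) Q

set_option maxHeartbeats 1600000 in
/-- **(E1') at `n`: `T_r` and the second reduction.** -/
theorem exists_hecke_red₂N (F : ChartFrame hA hqM) (hF : RedStd2 F) (r : Nat.Primes)
    (hrq : (r : ℕ) ≠ q) (hrM : ¬ (r : ℕ) ∣ M) (n : ℕ)
    (D : Divisor.degZero (K := Qbar) (F := ↥(modularFunctionFieldBar (M * q))))
    (u : (F.X.N.R2.O)ˣ)
    (hD : ∀ P : Place Qbar ↥(modularFunctionFieldBar (M * q)),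
      (n : ℤ) * (D : Divisor Qbar ↥(modularFunctionFieldBar (M * q))) P =
        P.ord (((u : F.X.N.R2.O)) : ↥(modularFunctionFieldBar (M * q)))) :
    ∃ (D' : Divisor.degZero (K := Qbar) (F := ↥(modularFunctionFieldBar (M * q))))
      (u' : (F.X.N.R2.O)ˣ),
      Pic0.mk D' = heckeOperatorBar (M * q) r (Pic0.mk D) ∧
      (∀ P : Place Qbar ↥(modularFunctionFieldBar (M * q)),
        (n : ℤ) * (D' : Divisor Qbar ↥(modularFunctionFieldBar (M * q))) P =
          P.ord (((u' : F.X.N.R2.O)) : ↥(modularFunctionFieldBar (M * q)))) ∧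
      ∀ Δ : Divisor (ResidueField ↥A) ↥(modularFunctionFieldFullC (ResidueField ↥A) M),
        (∀ Q, Δ Q = Q.ord (F.X.N.R2.red u)) →
        ∀ Q, Q.ord (F.X.N.R2.red u') = heckeDivK M hqM A hA r Δ Q := by
  obtain ⟨D', hD', hcoe⟩ :=
    Fermat.Agent.S35.DegeneracyHecke.coe_degZero_of_hecke_mk (N := M * q) r D
  have hu2 : ((u : F.X.N.R2.O) : ↥(modularFunctionFieldBar (M * q))) ∈ V₂ hA hqM :=
    mem_V₂_of_mem F (u : F.X.N.R2.O).2
  have hured : F.X.N.R2.red (u : F.X.N.R2.O) = red₂ hA hqM ⟨_, hu2⟩ := hF _ _ hu2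
  have hu0 : F.X.N.R2.red (u : F.X.N.R2.O) ≠ 0 := by
    intro h0
    exact ((F.X.N.R2.red_eq_zero_iff _).mp h0) u.isUnit
  have hh : red₂ hA hqM ⟨_, hu2⟩ ≠ 0 := hured ▸ hu0
  obtain ⟨hmem, hne, hord⟩ := exists_red₂_normBeta hA hqM (r := (r : ℕ)) r.2 hrq hrM ⟨_, hu2⟩ hh
  have hmem1 : normBeta (M * q) r ((u : F.X.N.R2.O) : ↥(modularFunctionFieldBar (M * q))) ∈
      F.X.N.R2.O := mem_of_mem_V₂ F hmem
  have hred' : F.X.N.R2.red ⟨_, hmem1⟩ = red₂ hA hqM ⟨_, hmem⟩ := hF _ _ hmem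
  have hunit : IsUnit (⟨_, hmem1⟩ : F.X.N.R2.O) := by
    by_contra hnu
    exact hne (hred' ▸ (F.X.N.R2.red_eq_zero_iff _).mpr hnu)
  refine ⟨D', hunit.unit, hD'.symm, fun P => ?_, fun Δ hΔ Q => ?_⟩
  · have hune : ((u : F.X.N.R2.O) : ↥(modularFunctionFieldBar (M * q))) ≠ 0 := by
      intro h0
      apply hu0
      have : (u : F.X.N.R2.O) = 0 := Subtype.ext h0
      rw [this, map_zero]
    have hnD : ∀ v : Place Qbar ↥(modularFunctionFieldBar (M * q)),
        ((n : ℤ) • (D : Divisor Qbar ↥(modularFunctionFieldBar (M * q)))) v =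
          v.ord ((u : F.X.N.R2.O) : ↥(modularFunctionFieldBar (M * q))) := fun v => by
      rw [Finsupp.smul_apply, smul_eq_mul]
      exact hD v
    have h1 := heckeDiv_principal (M * q) (r : ℕ) hune hnD P
    have hcoe' : (D' : Divisor Qbar ↥(modularFunctionFieldBar (M * q))) =
        Fermat.Agent.S37.Hecke.Principal.heckeDiv (M * q) (r : ℕ)
          (D : Divisor Qbar ↥(modularFunctionFieldBar (M * q))) := hcoe
    rw [map_zsmul, Finsupp.smul_apply, smul_eq_mul, ← hcoe'] at h1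
    rw [IsUnit.unit_spec]
    exact h1
  · rw [IsUnit.unit_spec, hred']
    exact hord Δ (fun Q' => by rw [hΔ Q', hured]) Q

/-! ### `T_r` and the reductions at level `M q`, torsion order `n` -/

variable {F : ChartFrame hA hqM} {n : ℕ}

/-- **`T_r` and the first reduction** -/
theorem HasRed1N.hecke (hF : RedStd F) (r : Nat.Primes)
    (hrq : (r : ℕ) ≠ q) (hrM : ¬ (r : ℕ) ∣ M) {x : JZero (M * q)}
    {Eb : Divisor (ResidueField ↥A) ↥(modularFunctionFieldFullC (ResidueField ↥A) M)}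
    (h : HasRed1N F n x Eb) :
    HasRed1N F n (heckeOperatorBar (M * q) r x) (heckeDivK M hqM A hA (r : ℕ) Eb) := by
  obtain ⟨D, u, rfl, hD, hE⟩ := h
  obtain ⟨D', u', hD'x, hD', hΔ⟩ := exists_hecke_redN F hF r hrq hrM n D u hD
  refine ⟨D', u', hD'x, hD', fun Q => ?_⟩
  rw [hΔ ((n : ℤ) • Eb) (fun Q' => by rw [Finsupp.smul_apply, smul_eq_mul, hE Q']) Q, map_zsmul,
    Finsupp.smul_apply, smul_eq_mul]

/-- **`T_r` and the second reduction** -/
theorem HasRed2N.hecke (hF2 : RedStd2 F) (r : Nat.Primes)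
    (hrq : (r : ℕ) ≠ q) (hrM : ¬ (r : ℕ) ∣ M) {x : JZero (M * q)}
    {Eb : Divisor (ResidueField ↥A) ↥(modularFunctionFieldFullC (ResidueField ↥A) M)}
    (h : HasRed2N F n x Eb) :
    HasRed2N F n (heckeOperatorBar (M * q) r x) (heckeDivK M hqM A hA (r : ℕ) Eb) := by
  obtain ⟨D, u, rfl, hD, hE⟩ := h
  obtain ⟨D', u', hD'x, hD', hΔ⟩ := exists_hecke_red₂N F hF2 r hrq hrM n D u hD
  refine ⟨D', u', hD'x, hD', fun Q => ?_⟩
  rw [hΔ ((n : ℤ) • Eb) (fun Q' => by rw [Finsupp.smul_apply, smul_eq_mul, hE Q']) Q, map_zsmul,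
    Finsupp.smul_apply, smul_eq_mul]

/-- `T_r` preserves the finite part of level `n` -/
theorem hecke_mem_finRedN (hF : RedStd F) (hF2 : RedStd2 F) (r : Nat.Primes)
    (hrq : (r : ℕ) ≠ q) (hrM : ¬ (r : ℕ) ∣ M) {x : JZero (M * q)} (hx : x ∈ finRedN F n) :
    heckeOperatorBar (M * q) r x ∈ finRedN F n := by
  obtain ⟨⟨Eb1, h1⟩, ⟨Eb2, h2⟩⟩ := hx
  exact ⟨⟨_, HasRed1N.hecke hF r hrq hrM h1⟩, ⟨_, HasRed2N.hecke hF2 r hrq hrM h2⟩⟩

variable (hn : n ≠ 0)

/-- **`rho1N (T_r x) = T_r (rho1N x)`** -/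
theorem rho1N_hecke (hF : RedStd F) (hF2 : RedStd2 F) (r : Nat.Primes)
    (hrq : (r : ℕ) ≠ q) (hrM : ¬ (r : ℕ) ∣ M) (x : finRedN F n) :
    rho1N F n hn ⟨heckeOperatorBar (M * q) r (x : JZero (M * q)),
        hecke_mem_finRedN hF hF2 r hrq hrM x.2⟩ =
      heckePic0K hA hqM (r : ℕ) r.2 hrM hrq (rho1N F n hn x) := by
  obtain ⟨⟨Eb1, h1⟩, -⟩ := x.2
  rw [rho1N_eq hn x h1, rho1N_eq hn ⟨_, hecke_mem_finRedN hF hF2 r hrq hrM x.2⟩
    (HasRed1N.hecke hF r hrq hrM h1), heckePic0K_mk]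
  rfl

/-- **`rho2N (T_r x) = T_r (rho2N x)`** -/
theorem rho2N_hecke (hF : RedStd F) (hF2 : RedStd2 F) (r : Nat.Primes)
    (hrq : (r : ℕ) ≠ q) (hrM : ¬ (r : ℕ) ∣ M) (x : finRedN F n) :
    rho2N F n hn ⟨heckeOperatorBar (M * q) r (x : JZero (M * q)),
        hecke_mem_finRedN hF hF2 r hrq hrM x.2⟩ =
      heckePic0K hA hqM (r : ℕ) r.2 hrM hrq (rho2N F n hn x) := by
  obtain ⟨-, ⟨Eb2, h2⟩⟩ := x.2
  rw [rho2N_eq hn x h2, rho2N_eq hn ⟨_, hecke_mem_finRedN hF hF2 r hrq hrM x.2⟩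
    (HasRed2N.hecke hF2 r hrq hrM h2), heckePic0K_mk]
  rfl

/-- a `T_r`-eigenclass of `J₀(M q)` with a first reduction `Eb` gives a `T_r`-eigenclass `[Eb]`
of `Pic⁰ κ` with the same eigenvalue -/
theorem heckePic0K_mk_of_hasRed1N (hF : RedStd F) (r : Nat.Primes)
    (hrq : (r : ℕ) ≠ q) (hrM : ¬ (r : ℕ) ∣ M) {x : JZero (M * q)}
    {Eb : Divisor (ResidueField ↥A) ↥(modularFunctionFieldFullC (ResidueField ↥A) M)}
    (h : HasRed1N F n x Eb) (a : ℤ) (hx : heckeOperatorBar (M * q) r x = a • x) :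
    heckePic0K hA hqM (r : ℕ) r.2 hrM hrq (Pic0.mk ⟨Eb, HasRed.degree_eq_zero hn h⟩) =
      a • Pic0.mk ⟨Eb, HasRed.degree_eq_zero hn h⟩ := by
  have h1 : HasRed1N F n (a • x) (heckeDivK M hqM A hA (r : ℕ) Eb) :=
    hx ▸ HasRed1N.hecke hF r hrq hrM h
  obtain ⟨x', hx'⟩ : ∃ x' : redSub F.X.N.R1.toBranch n, (x' : JZero (M * q)) = x :=
    ⟨⟨x, Eb, h⟩, rfl⟩
  have h' : HasRed F.X.N.R1.toBranch n (x' : JZero (M * q)) Eb := hx'.symm ▸ h
  have h1' : HasRed F.X.N.R1.toBranch n ((a • x' : redSub F.X.N.R1.toBranch n) : JZero (M * q))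
      (heckeDivK M hqM A hA (r : ℕ) Eb) := by
    rw [AddSubgroup.coe_zsmul, hx']
    exact h1
  have e1 := rho_eq constE hn x' h'
  have e2 := rho_eq constE hn (a • x') h1'
  rw [map_zsmul, e1] at e2
  rw [heckePic0K_mk, e2]
  rfl

/-- the same for the second reduction -/
theorem heckePic0K_mk_of_hasRed2N (hF2 : RedStd2 F) (r : Nat.Primes)
    (hrq : (r : ℕ) ≠ q) (hrM : ¬ (r : ℕ) ∣ M) {x : JZero (M * q)}
    {Eb : Divisor (ResidueField ↥A) ↥(modularFunctionFieldFullC (ResidueField ↥A) M)}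
    (h : HasRed2N F n x Eb) (a : ℤ) (hx : heckeOperatorBar (M * q) r x = a • x) :
    heckePic0K hA hqM (r : ℕ) r.2 hrM hrq (Pic0.mk ⟨Eb, HasRed.degree_eq_zero hn h⟩) =
      a • Pic0.mk ⟨Eb, HasRed.degree_eq_zero hn h⟩ := by
  have h1 : HasRed2N F n (a • x) (heckeDivK M hqM A hA (r : ℕ) Eb) :=
    hx ▸ HasRed2N.hecke hF2 r hrq hrM h
  obtain ⟨x', hx'⟩ : ∃ x' : redSub F.X.N.R2.toBranch n, (x' : JZero (M * q)) = x :=
    ⟨⟨x, Eb, h⟩, rfl⟩
  have h' : HasRed F.X.N.R2.toBranch n (x' : JZero (M * q)) Eb := hx'.symm ▸ h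
  have h1' : HasRed F.X.N.R2.toBranch n ((a • x' : redSub F.X.N.R2.toBranch n) : JZero (M * q))
      (heckeDivK M hqM A hA (r : ℕ) Eb) := by
    rw [AddSubgroup.coe_zsmul, hx']
    exact h1
  have e1 := rho_eq constE hn x' h'
  have e2 := rho_eq constE hn (a • x') h1'
  rw [map_zsmul, e1] at e2
  rw [heckePic0K_mk, e2]
  rfl

/-- **(h2) at `n`, first reduction**: for a `T_r`-eigenclass `x` of `J₀(M q)` with eigenvalue `a`
in the finite part of level `n`, every class `y` of `J₀(M)` whose reduction is a multiple of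
`rho1N x` has `red (T_r y - a y) = 0` -/
theorem reductionModL_hecke_eq_rho1N (hF : RedStd F) (r : Nat.Primes)
    (hrq : (r : ℕ) ≠ q) (hrM : ¬ (r : ℕ) ∣ M) (x : finRedN F n) (a : ℤ)
    (hx : heckeOperatorBar (M * q) r (x : JZero (M * q)) = a • (x : JZero (M * q))) (y : JZero M)
    (c : ℤ) (hy : reductionModL A M y = c • rho1N F n hn x) :
    reductionModL A M (heckeOperatorBar M r y - a • y) = 0 := by
  obtain ⟨⟨Eb, h⟩, -⟩ := x.2
  rw [rho1N_eq hn x h] at hy
  rw [map_sub, map_zsmul, reductionModL_hecke hA hqM r hrM hrq y, hy, map_zsmul,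
    heckePic0K_mk_of_hasRed1N hn hF r hrq hrM h a hx, smul_comm, sub_self]

/-- **(h2) at `n`, second reduction** -/
theorem reductionModL_hecke_eq_rho2N (hF2 : RedStd2 F) (r : Nat.Primes)
    (hrq : (r : ℕ) ≠ q) (hrM : ¬ (r : ℕ) ∣ M) (x : finRedN F n) (a : ℤ)
    (hx : heckeOperatorBar (M * q) r (x : JZero (M * q)) = a • (x : JZero (M * q))) (y : JZero M)
    (c : ℤ) (hy : reductionModL A M y = c • rho2N F n hn x) :
    reductionModL A M (heckeOperatorBar M r y - a • y) = 0 := by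
  obtain ⟨-, ⟨Eb, h⟩⟩ := x.2
  rw [rho2N_eq hn x h] at hy
  rw [map_sub, map_zsmul, reductionModL_hecke hA hqM r hrM hrq y, hy, map_zsmul,
    heckePic0K_mk_of_hasRed2N hn hF2 r hrq hrM h a hx, smul_comm, sub_self]

/-- **(K) for a standard frame**: the kernel of the two reductions is the group of `1`-unit
classes of level `n` -/
theorem mem_oneUnit_of_rho_eq_zero_of_redStd (hF : RedStd F) (hF2 : RedStd2 F) (x : finRedN F n)
    (h1 : rho1N F n hn x = 0) (h2 : rho2N F n hn x = 0) :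
    (x : JZero (M * q)) ∈ Fermat.Agent.S33.KP.OneUnit.oneUnit hA hqM n :=
  mem_oneUnit_of_rho_eq_zero hn (surjective_red1 hF) (surjective_red2 hF2) x h1 h2

end Fermat.Agent.S43.T1.Fin.HeckeN

end
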