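/-
PROJECT R (S43), block T1, brick (c) of the leader's cut (helper1): **THE REDUCTIONS OF A NEW CLASS OF
THE FINITE PART ARE FIXED BY THE SQUARE OF THE FROBENIUS OF THE SPECIAL FIBRE**, hence killed by ONE
constant `c`, independent of the torsion level `n` (`Seam.NormRelN`, and its `n`-free form, which is
what (X) `Hyp.ToricOfNewFixed` needs).

Route (no two-sided unit, no weak approximation; the two branches separately): main's
`S35/N1X0.n1` (the norm formulas `norm_alpha_X0`, `norm_beta_X0` are inside): for a Frobenius lift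
`σ` at `A ∣ q` and ANY Kummer presentation `n D = div f` of a class killed by `α_*`, `β_*`:
`σ_E (σ_E f) = h ^ n * u * f`, `u` a one-unit of both Gauss rings.  Take `(D, f)` = the
representative `(D₁, u₁)` of `HasRed1N`, `u₁` a unit of the first Gauss ring; normalise `h` by a
constant; reduce with `S35/NewLayerX0.frobSq_V₁` (`red₁ (σ_E² u₁) = Ψ² (red₁ u₁)`, `Ψ` = the ring part
of `Φ := coeffAut κ M (frobAut q)`); on divisors `n (Φ² • Eb₁ - Eb₁) = n div (red₁ h')`.  Same on the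
second branch with `frobSq_V₂`.  `c :=` the number of `Φ²`-fixed points of `JZeroC κ M`
(`S15/P/FrobFixed/X0.finite_frobFixed_pow`, `m = 2`).

* `smul_sub_mem_principal_of_frob` : the abstract step over one branch;
* `frobSq_smul_rho1N`, `frobSq_smul_rho2N` : `Φ² • ρ_i x = ρ_i x` for new `x` of the finite part;
* `normRelAll` : **the `n`-free form**; `normRelN` : `Seam.NormRelN F n hn`.
-/
import Fermat.Agent.S43.T1.Seam
import Fermat.Agent.S35.N1X0
import Fermat.Agent.S15.P.FrobFixed.X0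
import Fermat.Agent.Lib.FrobeniusExists

set_option autoImplicit false
set_option linter.unusedSectionVars false
set_option linter.unusedVariables false
set_option linter.style.haveILetI false
set_option synthInstance.maxHeartbeats 400000

noncomputable section

namespace Fermat.Agent.S43.T1.Fin.NormN

open ModularCurve AlgebraicCurve IsLocalRing
open Fermat.Agent.S34.NodalDefs Fermat.Agent.S34.Z1X0 Fermat.Agent.S34.Z1Abstract
open Fermat.Agent.S34.CoreZX0Datum
open Fermat.Agent.S33.X0.Frame Fermat.Agent.S33.KP.OneUnit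
open Fermat.Agent.S44.Core.NodeOrd
open Fermat.Agent.S44.Fin.Red
open Fermat.Agent.S43.T1.Fin.RedN
open Fermat.Agent.S37.Equivariance.CoeffAut
open Fermat.Agent.S35.LevelMaps Fermat.Agent.S35.DegeneracyHecke Fermat.Agent.S35.DegeneracyGalois

local notation "Qbar" => AlgebraicClosure ℚ

/-! ### The abstract step over one branch -/

section Abstract

variable {L : Type*} [Field L] {FL : Type*} [Field FL] [Algebra L FL]
variable {k : Type*} [Field k] {Fk : Type*} [Field Fk] [Algebra k Fk]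
variable {A' : ValuationSubring L} {π : A' →+* k}

/-- **the abstract step**: `s` a ring automorphism of `FL` preserving the Gauss ring of the branch
`R` and acting on the reductions through the semilinear automorphism `Φ` of `Fk`; `u₁` a unit of the
Gauss ring with `s u₁ = h ^ n * u * u₁`, `u` a one-unit; `div (red u₁) = n Eb`.  Then
`Φ • Eb - Eb` is principal. -/
theorem smul_sub_mem_principal_of_frob (R : Branch A' π FL Fk) {n : ℕ} (hn : n ≠ 0)
    (s : FL ≃+* FL) (Φ : SemilinearAut k Fk)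
    (hs : ∀ (y : FL) (hy : y ∈ R.O), ∃ h : s y ∈ R.O, R.red ⟨s y, h⟩ = Φ • R.red ⟨y, hy⟩)
    (u₁ : R.Oˣ) (h u : FL) (hh : h ≠ 0) (hu : IsOneUnit R.O u)
    (he : s (((u₁ : R.O)) : FL) = h ^ n * u * (((u₁ : R.O)) : FL))
    (Eb : Divisor k Fk) (hE : ∀ Q : Place k Fk, Q.ord (R.red (u₁ : R.O)) = (n : ℤ) * Eb Q) :
    Φ • Eb - Eb ∈ Divisor.principal (K := k) (F := Fk) := by
  obtain ⟨c₀, hc₀, t₀, ht₀⟩ := R.exists_const_mul_unit h hh
  obtain ⟨v, hv, hvred⟩ := exists_unit_of_isOneUnit R hu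
  obtain ⟨hsmem, hsred⟩ := hs (((u₁ : R.O)) : FL) (u₁ : R.O).2
  have hsred' : R.red ⟨s (((u₁ : R.O)) : FL), hsmem⟩ = Φ • R.red (u₁ : R.O) := hsred
  obtain ⟨w, hw⟩ : ∃ w : R.Oˣ, w = t₀ ^ n * v * u₁ := ⟨_, rfl⟩
  have hwcoe : (((w : R.O)) : FL) =
      (((t₀ : R.O)) : FL) ^ n * u * (((u₁ : R.O)) : FL) := by
    rw [hw, Units.val_mul, Units.val_mul, MulMemClass.coe_mul, MulMemClass.coe_mul,
      Units.val_pow_eq_pow_val, SubmonoidClass.coe_pow, hv]
  have hw0 := Fermat.Agent.S34.NodalDisc.coe_unit_ne_zero R w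
  -- the constant
  have hconst : algebraMap L FL (c₀ ^ n) * (((w : R.O)) : FL) = s (((u₁ : R.O)) : FL) := by
    rw [he, hwcoe, ht₀, map_pow]
    ring
  have hconst' : algebraMap L FL (c₀ ^ n) =
      s (((u₁ : R.O)) : FL) * ((((w⁻¹ : R.Oˣ) : R.O)) : FL) := by
    rw [Fermat.Agent.S34.NodalDisc.coe_inv_unit, ← hconst, mul_assoc, mul_inv_cancel₀ hw0, mul_one]
  have hκO : algebraMap L FL (c₀ ^ n) ∈ R.O := by
    rw [hconst']
    exact R.O.mul_mem _ _ hsmem ((w⁻¹ : R.Oˣ) : R.O).2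
  have hκA : c₀ ^ n ∈ A' := R.mem_of_algebraMap_mem _ hκO
  have hκred : R.red ⟨algebraMap L FL (c₀ ^ n), hκO⟩ = algebraMap k Fk (π ⟨c₀ ^ n, hκA⟩) :=
    R.red_algebraMap ⟨c₀ ^ n, hκA⟩
  have hprod : (⟨s (((u₁ : R.O)) : FL), hsmem⟩ : R.O) =
      ⟨algebraMap L FL (c₀ ^ n), hκO⟩ * (w : R.O) := Subtype.ext hconst.symm
  have hred : Φ • R.red (u₁ : R.O) = algebraMap k Fk (π ⟨c₀ ^ n, hκA⟩) *
      (R.red (t₀ : R.O) ^ n * R.red (u₁ : R.O)) := by
    rw [← hsred', hprod, map_mul, hκred, hw, Units.val_mul, Units.val_mul,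
      Units.val_pow_eq_pow_val, map_mul, map_mul, map_pow, hvred, mul_one]
  have hu_ne := Fermat.Agent.S34.NodalDisc.red_unit_ne_zero R u₁
  have ht_ne := Fermat.Agent.S34.NodalDisc.red_unit_ne_zero R t₀
  have hΦne : Φ • R.red (u₁ : R.O) ≠ 0 := by
    rw [SemilinearAut.smul_def]
    exact (map_ne_zero _).mpr hu_ne
  have hκne : algebraMap k Fk (π ⟨c₀ ^ n, hκA⟩) ≠ 0 := by
    intro h0
    rw [hred, h0, zero_mul] at hΦne
    exact hΦne rfl
  have hn' : (n : ℤ) ≠ 0 := by exact_mod_cast hn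
  refine ⟨R.red (t₀ : R.O), ht_ne, fun Q => ?_⟩
  have h1 : Q.ord (Φ • R.red (u₁ : R.O)) = (n : ℤ) * (Φ • Eb) Q := by
    rw [Fermat.Agent.S34.KummerZ.ord_smul_eq, hE, SemilinearAut.divisor_smul_apply]
  rw [hred, Q.ord_mul hκne (mul_ne_zero (pow_ne_zero _ ht_ne) hu_ne),
    Q.ord_mul (pow_ne_zero _ ht_ne) hu_ne, Fermat.Agent.S34.KummerZ.ord_pow,
    Fermat.Agent.S24.Ord.ord_algebraMap, zero_add, hE Q] at h1
  have h2 : (n : ℤ) * ((Φ • Eb) Q - Eb Q) = (n : ℤ) * Q.ord (R.red (t₀ : R.O)) := by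
    linarith
  rw [Finsupp.sub_apply]
  exact mul_left_cancel₀ hn' h2

end Abstract

/-! ### The instance at `X₀(M q)` -/

attribute [local instance 2000] Fermat.Agent.S34.EulerX0.algResFk

/-- local instance: principal divisors on `E` -/
local instance instPDBar (N : ℕ) [NeZero N] :
    HasPrincipalDivisors Qbar ↥(modularFunctionFieldBar N) :=
  Fermat.Agent.S18.A.Instances.hasPrincipalDivisors_bar N

/-- local instance: principal divisors on the components -/
local instance instPDFk (A : ValuationSubring Qbar) (N : ℕ) [NeZero N] :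
    HasPrincipalDivisors (ResidueField ↥A) ↥(modularFunctionFieldFullC (ResidueField ↥A) N) :=
  Fermat.Agent.S37.ReductionInputs.hasPrincipalDivisors_Fk A N

/-- local instance: the residue field is algebraically closed -/
local instance instACk (A : ValuationSubring Qbar) : IsAlgClosed (ResidueField ↥A) :=
  Fermat.Agent.S18.ResidueBasics.isAlgClosed_residueField A

variable {q : ℕ} [hq : Fact q.Prime] {M : ℕ} [NeZero M] {A : ValuationSubring Qbar} [NeZero q]
variable {hA : A.LiesOverPrime q} {hqM : ¬ q ∣ M}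

local instance instNeZeroMul : NeZero (M * q) :=
  ⟨Nat.mul_ne_zero (NeZero.ne M) (NeZero.ne q)⟩

variable {F : ChartFrame hA hqM} {n : ℕ} (hn : n ≠ 0)

section Frob

variable [CharP (ResidueField ↥A) q]

/-- the Frobenius of the special fibre of level `M` -/
abbrev frobK (A : ValuationSubring Qbar) (M q : ℕ) [NeZero M] [Fact q.Prime]
    [CharP (ResidueField ↥A) q] :
    SemilinearAut (ResidueField ↥A) ↥(modularFunctionFieldFullC (ResidueField ↥A) M) :=
  coeffAut (ResidueField ↥A) M (frobAut (ResidueField ↥A) q)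

/-- `Ψ² = Φ²` on functions -/
theorem psi_psi_eq (z : ↥(modularFunctionFieldFullC (ResidueField ↥A) M)) :
    Fermat.Agent.S35.NewLayerX0.Psi (q := q) (Fermat.Agent.S35.NewLayerX0.Psi (q := q) z)
      = (frobK A M q ^ 2) • z := by
  rw [Fermat.Agent.S35.NewLayerX0.Psi_apply, Fermat.Agent.S35.NewLayerX0.Psi_apply, sq, mul_smul]
  rfl

/-- from a principal difference to a fixed class -/
theorem smul_mk_eq_of_sub_mem_principal
    (Φ : SemilinearAut (ResidueField ↥A) ↥(modularFunctionFieldFullC (ResidueField ↥A) M))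
    (Eb : Divisor.degZero (K := ResidueField ↥A)
      (F := ↥(modularFunctionFieldFullC (ResidueField ↥A) M)))
    (h : Φ • (Eb : Divisor (ResidueField ↥A) ↥(modularFunctionFieldFullC (ResidueField ↥A) M))
        - (Eb : Divisor (ResidueField ↥A) ↥(modularFunctionFieldFullC (ResidueField ↥A) M))
      ∈ Divisor.principal (K := ResidueField ↥A)
        (F := ↥(modularFunctionFieldFullC (ResidueField ↥A) M))) :
    Φ • Pic0.mk Eb = Pic0.mk Eb := by
  rw [SemilinearAut.pic0_smul_mk]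
  symm
  apply QuotientAddGroup.eq.mpr
  rw [AddSubgroup.mem_addSubgroupOf, AddSubgroup.coe_add, AddSubgroup.coe_neg,
    SemilinearAut.coe_degZeroSMulHom, neg_add_eq_sub]
  exact h

variable {σ : Qbar ≃ₐ[ℚ] Qbar}

/-- **`Φ² • ρ₁ x = ρ₁ x`** for a new class of the finite part. -/
theorem frobSq_smul_rho1N (hstd : Fermat.Agent.S44.Eis.HeckeNode.RedStd F) (x : finRedN F n)
    (ha : alphaPush M q (x : JZero (M * q)) = 0) (hb : betaPush M q (x : JZero (M * q)) = 0) :
    (frobK A M q ^ 2) • rho1N F n hn x = rho1N F n hn x := by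
  haveI : PerfectField (ResidueField ↥A) := inferInstance
  obtain ⟨σ, hσ⟩ :=
    Fermat.Agent.Lib.FrobeniusExists.exists_isFrobeniusAt_algebraicClosure A hq.out hA
  obtain ⟨⟨Eb1, hx1⟩, -⟩ := x.2
  obtain ⟨D₁, u₁, hD₁x, hD₁, hE₁⟩ := id hx1
  have hu₁0 := Fermat.Agent.S34.NodalDisc.coe_unit_ne_zero F.X.N.R1.toBranch u₁
  obtain ⟨h, u, hh, hu, hu1, hu2, he⟩ := Fermat.Agent.S35.N1X0.n1 hA hqM hσ n hn D₁
    (((u₁ : F.X.N.R1.O)) : ↥(modularFunctionFieldBar (M * q))) hu₁0 (fun w => (hD₁ w).symm)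
    (by rw [hD₁x]; exact (degPair_eq_zero_iff _).mpr ⟨ha, hb⟩)
  have hu1' : IsOneUnit F.X.N.R1.O u := by rw [F.X.O1_eq]; exact hu1
  have hprin := smul_sub_mem_principal_of_frob F.X.N.R1.toBranch hn
    (Fermat.Agent.S35.NewLayerX0.sigmaSq M q σ) (frobK A M q ^ 2)
    (fun y hy => by
      have hyV := Fermat.Agent.S44.Eis.HeckeNode.mem_V₁_of_mem F hy
      obtain ⟨h', hred⟩ := Fermat.Agent.S35.NewLayerX0.frobSq_V₁ hA hqM hσ y hyV
      refine ⟨Fermat.Agent.S44.Eis.HeckeNode.mem_of_mem_V₁ F h', ?_⟩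
      rw [hstd _ _ h', hstd y hy hyV, hred, psi_psi_eq])
    u₁ h u hh hu1'
    (by rw [Fermat.Agent.S35.NewLayerX0.sigmaSq_apply']; exact he) Eb1 hE₁
  rw [rho1N_eq hn x hx1]
  exact smul_mk_eq_of_sub_mem_principal _ _ hprin

/-- **`Φ² • ρ₂ x = ρ₂ x`** for a new class of the finite part. -/
theorem frobSq_smul_rho2N (hstd2 : Fermat.Agent.S44.Eis.HeckeNode.RedStd2 F) (x : finRedN F n)
    (ha : alphaPush M q (x : JZero (M * q)) = 0) (hb : betaPush M q (x : JZero (M * q)) = 0) :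
    (frobK A M q ^ 2) • rho2N F n hn x = rho2N F n hn x := by
  haveI : PerfectField (ResidueField ↥A) := inferInstance
  obtain ⟨σ, hσ⟩ :=
    Fermat.Agent.Lib.FrobeniusExists.exists_isFrobeniusAt_algebraicClosure A hq.out hA
  obtain ⟨-, ⟨Eb2, hx2⟩⟩ := x.2
  obtain ⟨D₂, u₂, hD₂x, hD₂, hE₂⟩ := id hx2
  have hu₂0 := Fermat.Agent.S34.NodalDisc.coe_unit_ne_zero F.X.N.R2.toBranch u₂
  obtain ⟨h, u, hh, hu, hu1, hu2, he⟩ := Fermat.Agent.S35.N1X0.n1 hA hqM hσ n hn D₂
    (((u₂ : F.X.N.R2.O)) : ↥(modularFunctionFieldBar (M * q))) hu₂0 (fun w => (hD₂ w).symm)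
    (by rw [hD₂x]; exact (degPair_eq_zero_iff _).mpr ⟨ha, hb⟩)
  have hu2' : IsOneUnit F.X.N.R2.O u := by rw [F.X.O2_eq]; exact hu2
  have hprin := smul_sub_mem_principal_of_frob F.X.N.R2.toBranch hn
    (Fermat.Agent.S35.NewLayerX0.sigmaSq M q σ) (frobK A M q ^ 2)
    (fun y hy => by
      have hyV := Fermat.Agent.S44.Eis.HeckeNode.mem_V₂_of_mem F hy
      obtain ⟨h', hred⟩ := Fermat.Agent.S35.NewLayerX0.frobSq_V₂ hA hqM hσ y hyV
      refine ⟨Fermat.Agent.S44.Eis.HeckeNode.mem_of_mem_V₂ F h', ?_⟩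
      rw [hstd2 _ _ h', hstd2 y hy hyV, hred, psi_psi_eq])
    u₂ h u hh hu2'
    (by rw [Fermat.Agent.S35.NewLayerX0.sigmaSq_apply']; exact he) Eb2 hE₂
  rw [rho2N_eq hn x hx2]
  exact smul_mk_eq_of_sub_mem_principal _ _ hprin

end Frob

/-! ### The constant -/

/-- **(c), `n`-free form**: ONE constant `c ≠ 0` kills both reductions of every new class of the
finite part of every level `n`. -/
theorem normRelAll (hstd : Fermat.Agent.S44.Eis.HeckeNode.RedStd F)
    (hstd2 : Fermat.Agent.S44.Eis.HeckeNode.RedStd2 F) :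
    ∃ c : ℕ, c ≠ 0 ∧ ∀ (n : ℕ) (hn : n ≠ 0) (x : finRedN F n),
      alphaPush M q (x : JZero (M * q)) = 0 → betaPush M q (x : JZero (M * q)) = 0 →
      c • rho1N F n hn x = 0 ∧ c • rho2N F n hn x = 0 := by
  haveI : CharP (ResidueField ↥A) q := Fermat.Agent.S18.ResidueBasics.charP_residueField A hA
  have hfin := Fermat.Agent.S15.P.FrobFixed.X0.finite_frobFixed_pow (ResidueField ↥A) M q
    (m := 2) two_pos
  set Φ := frobK A M q ^ 2 with hΦ
  let H : AddSubgroup (JZeroC (ResidueField ↥A) M) :=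
    { carrier := {y | Φ • y = y}
      zero_mem' := smul_zero Φ
      add_mem' := by
        intro a b ha hb
        show Φ • (a + b) = a + b
        rw [smul_add, ha, hb]
      neg_mem' := by
        intro a ha
        show Φ • (-a) = -a
        rw [smul_neg, ha] }
  have : Finite H := hfin.to_subtype
  have key : ∀ y : JZeroC (ResidueField ↥A) M, Φ • y = y → Nat.card H • y = 0 := by
    intro y hy
    have h0 : Nat.card H • (⟨y, hy⟩ : H) = 0 := card_nsmul_eq_zero'
    have h1 : ((Nat.card H • (⟨y, hy⟩ : H) : H) : JZeroC (ResidueField ↥A) M) = 0 := by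
      rw [h0]; rfl
    rw [AddSubgroup.coe_nsmul] at h1
    exact h1
  refine ⟨Nat.card H, Nat.card_pos.ne', fun n hn x ha hb => ⟨?_, ?_⟩⟩
  · exact key _ (frobSq_smul_rho1N hn hstd x ha hb)
  · exact key _ (frobSq_smul_rho2N hn hstd2 x ha hb)

/-- **(c)** = `Seam.NormRelN F n hn`, for a frame with the standard reductions. -/
theorem normRelN (hstd : Fermat.Agent.S44.Eis.HeckeNode.RedStd F)
    (hstd2 : Fermat.Agent.S44.Eis.HeckeNode.RedStd2 F) :
    Fermat.Agent.S43.T1.Seam.NormRelN F n hn := by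
  obtain ⟨c, hc, h⟩ := normRelAll (F := F) hstd hstd2
  exact ⟨c, hc, fun x ha hb => h n hn x ha hb⟩

/-- the same for a standard frame -/
theorem normRelN_of_stdFrame (SF : Fermat.Agent.S43.T1.Seam.StdFrame F) :
    Fermat.Agent.S43.T1.Seam.NormRelN F n hn :=
  normRelN hn SF.std1 SF.std2

end Fermat.Agent.S43.T1.Fin.NormN
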