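/-
PROJECT R (S43), block T1 (helper26): THE NON-NODE CLAUSE AT THE CHART FRAME AND
`node orders ≡ 0 mod n ⇒ both reductions exist`, AT ANY TORSION ORDER `n > 0` (the frame prime `q`
and `n` are independent).

`(n, q)`-twin of `S44/Fin/Hnn` on top of `T1/Core/DimCountN` (the dimension count without
Frobenius).  `F : ChartFrame hA hqM`, `Y : NodeHyp F`, `hLC : HasLocalCount F Y` (frame-only stock
of `S44/X0/FrameAll`).

* `dvd_ord_red_frameN` : for EVERY representative `x = [D]`, `n D = div u`, `u` a unit of the first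
  Gauss ring, the order of `red₁ u` at every place of the component which is not over a node is a
  multiple of `n`; `u = c * u2` with `u2` a unit of the second Gauss ring with the same property;
  at the nodes divisibility passes from the first branch to the second;
* `exists_offRepN` : a representative with the non-node clause;
* `mem_finRedN_of_dvd_nodes` : a class all of whose node orders are multiples of `n` has both
  reductions (`finPart ≤ finRed` at `n`), stated on a representative.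
-/
import Fermat.Agent.S43.T1.Core.DimCountN
import Fermat.Agent.S43.T1.Fin.RedN
import Fermat.Agent.S44.Fin.Hnn

set_option autoImplicit false
set_option linter.unusedSectionVars false
set_option linter.unusedVariables false
set_option linter.style.haveILetI false
set_option synthInstance.maxHeartbeats 400000

noncomputable section

namespace Fermat.Agent.S43.T1.Fin.HnnN

open ModularCurve AlgebraicCurve IsLocalRing
open Fermat.Agent.S34.NodalDefs Fermat.Agent.S34.Z1X0 Fermat.Agent.S34.Z1Abstract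
open Fermat.Agent.S34.CoreZX0Datum
open Fermat.Agent.S33.X0.Frame Fermat.Agent.S33.Nodal.Glued
open Fermat.Agent.S44.Core.NodeOrd Fermat.Agent.S44.Core.FrameHyp Fermat.Agent.S44.Core.TubeCount
open Fermat.Agent.S44.X0.FrameAll Fermat.Agent.S44.Fin.Red
open Fermat.Agent.S43.T1.Fin.RedN

local notation "Qbar" => AlgebraicClosure ℚ

attribute [local instance 2000] Fermat.Agent.S34.EulerX0.algResFk

/-- local instance: principal divisors on `E` -/
local instance instPDBar (N : ℕ) [NeZero N] :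
    HasPrincipalDivisors Qbar ↥(modularFunctionFieldBar N) :=
  Fermat.Agent.S18.A.Instances.hasPrincipalDivisors_bar N

/-- local instance: principal divisors on the components -/
local instance instPDFk (A : ValuationSubring Qbar) (N : ℕ) [NeZero N] :
    HasPrincipalDivisors (ResidueField ↥A) ↥(modularFunctionFieldFullC (ResidueField ↥A) N) :=
  Fermat.Agent.S37.ReductionInputs.hasPrincipalDivisors_Fk A N

variable {q : ℕ} [hq : Fact q.Prime] {M : ℕ} [NeZero M] {A : ValuationSubring Qbar} [NeZero q]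
variable {hA : A.LiesOverPrime q} {hqM : ¬ q ∣ M}

local instance instNeZeroMul : NeZero (M * q) :=
  ⟨Nat.mul_ne_zero (NeZero.ne M) (NeZero.ne q)⟩

variable {F : ChartFrame hA hqM} {n : ℕ}

set_option maxHeartbeats 1600000 in
/-- the local count at the nodes, for two-sided units whose divisor is a multiple of `n` -/
theorem dvd_node_sumN (Y : NodeHyp F) (hLC : HasLocalCount F Y) (v : O12 F.X.N)
    (D' : Divisor Qbar ↥(modularFunctionFieldBar (M * q)))
    (hr1 : F.X.N.R1.red (incl1 F.X.N v) ≠ 0) (hr2 : F.X.N.R2.red (incl2 F.X.N v) ≠ 0)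
    (hD' : ∀ P : Place Qbar ↥(modularFunctionFieldBar (M * q)),
      (n : ℤ) * D' P = P.ord ((v : O12 F.X.N) : ↥(modularFunctionFieldBar (M * q))))
    (e : {b // b ∈ F.X.S}) :
    (n : ℤ) ∣ (F.X.N.e1 e).ord (F.X.N.R1.red (incl1 F.X.N v)) +
      (F.X.N.e2 e).ord (F.X.N.R2.red (incl2 F.X.N v)) := by
  classical
  obtain ⟨T, hT⟩ : ∃ T : Finset (Place Qbar ↥(modularFunctionFieldBar (M * q))),
      T = D'.support.filter (· ∈ Y.tube e) := ⟨_, rfl⟩
  have h := hLC.node e ((v : O12 F.X.N) : ↥(modularFunctionFieldBar (M * q)))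
    (F.X.N.R1.red (incl1 F.X.N v)) (F.X.N.R2.red (incl2 F.X.N v))
    ⟨(incl1 F.X.N v).2, rfl⟩ ⟨(incl2 F.X.N v).2, rfl⟩ hr1 hr2 T
    (fun P hP => (Finset.mem_filter.mp (hT ▸ hP)).2)
    (fun P hP hne => hT ▸ Finset.mem_filter.mpr ⟨Finsupp.mem_support_iff.mpr (fun h0 => hne (by
      rw [← hD' P, h0, mul_zero])), hP⟩)
  rw [← h]
  refine Finset.dvd_sum fun P _ => ?_
  rw [← hD' P]
  exact dvd_mul_right _ _

set_option maxHeartbeats 1600000 in
/-- **the non-node clause at the chart frame, at any `n > 0`**, for EVERY representative of an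
`n`-torsion class. -/
theorem dvd_ord_red_frameN (hn : 0 < n) (Y : NodeHyp F) (hLC : HasLocalCount F Y)
    (D : Divisor Qbar ↥(modularFunctionFieldBar (M * q))) (hD0 : Divisor.degree D = 0)
    (u : (F.X.N.R1.O)ˣ)
    (hD : ∀ P : Place Qbar ↥(modularFunctionFieldBar (M * q)),
      (n : ℤ) * D P = P.ord (((u : F.X.N.R1.O)) : ↥(modularFunctionFieldBar (M * q)))) :
    (∀ Q : Place (ResidueField ↥A) ↥(modularFunctionFieldFullC (ResidueField ↥A) M),
        (∀ e, Q ≠ F.X.N.e1 e) → (n : ℤ) ∣ Q.ord (F.X.N.R1.red (u : F.X.N.R1.O))) ∧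
      ∃ (u2 : (F.X.N.R2.O)ˣ) (c : Qbar), c ≠ 0 ∧
        (((u : F.X.N.R1.O)) : ↥(modularFunctionFieldBar (M * q))) =
          algebraMap Qbar ↥(modularFunctionFieldBar (M * q)) c *
            (((u2 : F.X.N.R2.O)) : ↥(modularFunctionFieldBar (M * q))) ∧
        (∀ Q : Place (ResidueField ↥A) ↥(modularFunctionFieldFullC (ResidueField ↥A) M),
          (∀ e, Q ≠ F.X.N.e2 e) → (n : ℤ) ∣ Q.ord (F.X.N.R2.red (u2 : F.X.N.R2.O))) ∧
        ∀ e, (n : ℤ) ∣ (F.X.N.e1 e).ord (F.X.N.R1.red (u : F.X.N.R1.O)) →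
          (n : ℤ) ∣ (F.X.N.e2 e).ord (F.X.N.R2.red (u2 : F.X.N.R2.O)) := by
  haveI := F.X.Hk.infinite
  obtain ⟨Q2, hQ2⟩ := F.finite_Bad2.exists_notMem
  obtain ⟨c2, P2, -, -, hP2, -, -⟩ := F.exists_fixed_param_2 Q2 hQ2
  have hne : F.X.N.R1.O ≠ F.X.N.R2.O := by
    rw [F.X.O1_eq, F.X.O2_eq]
    exact V1X0_ne_V2X0 hA hqM
  have ha1 : Fermat.Agent.S34.WeakApprox.Arch F.X.N.R1.O := by
    rw [F.X.O1_eq]
    exact arch_VX0 hA hqM 0
  have ha2 : Fermat.Agent.S34.WeakApprox.Arch F.X.N.R2.O := by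
    rw [F.X.O2_eq]
    exact arch_VX0 hA hqM 1
  have ht1 : F.X.N.R1.O ≠ ⊤ := by
    rw [F.X.O1_eq]
    exact V_ne_top hA hqM (comap_VX0 hA hqM 0)
  have ht2 : F.X.N.R2.O ≠ ⊤ := by
    rw [F.X.O2_eq]
    exact V_ne_top hA hqM (comap_VX0 hA hqM 1)
  have he1 : Function.Injective F.X.N.e1 := by
    intro e e' h
    rw [Y.e1_eq e, Y.e1_eq e'] at h
    exact Subtype.ext (Y.Fr.injective h)
  have hg : (F.X.g : ℤ) + 1 = F.X.gk + F.X.gk + Fintype.card {b // b ∈ F.X.S} := by
    rw [Fintype.card_coe]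
    exact F.genus_eq
  exact Fermat.Agent.S43.T1.Core.DimCountN.dvd_ord_red_unitN F.X.N hn
    IsLocalRing.residue_surjective
    (Fermat.Agent.S33.X0.OrthoAdapter.orthoPair F.X) F.X.HL F.X.Hk F.X.Hk hg he1 F.X.e2_injective
    F.X.hQstar F.X.hstar (F.good_of_not_mem_Bad2 hQ2) hP2 hne ha1 ha2 ht1 ht2
    (fun c => IsAlgClosed.exists_pow_nat_eq c hn)
    (fun v D' h1 h2 hD' e => dvd_node_sumN Y hLC v D' h1 h2 hD' e) D hD0 u hD

set_option maxHeartbeats 1600000 in
/-- **(d1) at `n`**: every representative `x = [D]`, `n D = div f`, can be normalised to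
`n D = div u` with `u` a unit of the first Gauss ring satisfying the non-node clause. -/
theorem exists_offRepN (hn : 0 < n) (Y : NodeHyp F) (hLC : HasLocalCount F Y) (x : JZero (M * q))
    (hx : n • x = 0) :
    ∃ (D : Divisor.degZero (K := Qbar) (F := ↥(modularFunctionFieldBar (M * q))))
      (u : (F.X.N.R1.O)ˣ), Pic0.mk D = x ∧
      (∀ P : Place Qbar ↥(modularFunctionFieldBar (M * q)),
        (n : ℤ) * (D : Divisor Qbar ↥(modularFunctionFieldBar (M * q))) P =
          P.ord (((u : F.X.N.R1.O)) : ↥(modularFunctionFieldBar (M * q)))) ∧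
      ∀ Q : Place (ResidueField ↥A) ↥(modularFunctionFieldFullC (ResidueField ↥A) M),
        (∀ e, Q ≠ F.X.N.e1 e) → (n : ℤ) ∣ Q.ord (F.X.N.R1.red (u : F.X.N.R1.O)) := by
  have hx' : (n : ℤ) • x = 0 := by rw [natCast_zsmul]; exact hx
  obtain ⟨D, f, rfl, hf, hD⟩ := Fermat.Agent.S34.KummerZ.exists_mk_of_zsmul_eq_zero hx'
  obtain ⟨c, hc, u, hfu⟩ := F.X.N.R1.exists_const_mul_unit f hf
  have hu0 := Fermat.Agent.S34.NodalDisc.coe_unit_ne_zero F.X.N.R1.toBranch u
  have hcF : algebraMap Qbar ↥(modularFunctionFieldBar (M * q)) c ≠ 0 := (map_ne_zero _).mpr hc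
  have hDu : ∀ P : Place Qbar ↥(modularFunctionFieldBar (M * q)),
      (n : ℤ) * (D : Divisor Qbar ↥(modularFunctionFieldBar (M * q))) P =
        P.ord (((u : F.X.N.R1.O)) : ↥(modularFunctionFieldBar (M * q))) := by
    intro P
    have h1 := hD P
    rw [hfu, P.ord_mul hcF hu0, Fermat.Agent.S34.KummerZ.ord_algebraMap P hc, zero_add] at h1
    exact h1.symm
  exact ⟨D, u, rfl, hDu,
    (dvd_ord_red_frameN hn Y hLC (D : Divisor Qbar ↥(modularFunctionFieldBar (M * q)))
      (Divisor.mem_degZero.mp D.2) u hDu).1⟩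

set_option maxHeartbeats 1600000 in
/-- **(d2) at `n`: node orders `≡ 0 mod n` ⇒ both reductions exist** (`finPart ≤ finRed` at any
torsion order `n > 0`), stated on a representative. -/
theorem mem_finRedN_of_dvd_nodes (hn : 0 < n) (Y : NodeHyp F) (hLC : HasLocalCount F Y)
    (D : Divisor.degZero (K := Qbar) (F := ↥(modularFunctionFieldBar (M * q))))
    (u : (F.X.N.R1.O)ˣ)
    (hD : ∀ P : Place Qbar ↥(modularFunctionFieldBar (M * q)),
      (n : ℤ) * (D : Divisor Qbar ↥(modularFunctionFieldBar (M * q))) P =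
        P.ord (((u : F.X.N.R1.O)) : ↥(modularFunctionFieldBar (M * q))))
    (hnode1 : ∀ e, (n : ℤ) ∣ (F.X.N.e1 e).ord (F.X.N.R1.red (u : F.X.N.R1.O))) :
    (Pic0.mk D : JZero (M * q)) ∈ finRedN F n := by
  classical
  obtain ⟨hoff1, u2, c, hc, hu, hoff2, hnode12⟩ :=
    dvd_ord_red_frameN hn Y hLC (D : Divisor Qbar ↥(modularFunctionFieldBar (M * q)))
      (Divisor.mem_degZero.mp D.2) u hD
  have hall1 : ∀ Q : Place (ResidueField ↥A) ↥(modularFunctionFieldFullC (ResidueField ↥A) M),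
      (n : ℤ) ∣ Q.ord (F.X.N.R1.red (u : F.X.N.R1.O)) := by
    intro Q
    by_cases h : ∃ e, Q = F.X.N.e1 e
    · obtain ⟨e, rfl⟩ := h
      exact hnode1 e
    · exact hoff1 Q fun e he => h ⟨e, he⟩
  have hall2 : ∀ Q : Place (ResidueField ↥A) ↥(modularFunctionFieldFullC (ResidueField ↥A) M),
      (n : ℤ) ∣ Q.ord (F.X.N.R2.red (u2 : F.X.N.R2.O)) := by
    intro Q
    by_cases h : ∃ e, Q = F.X.N.e2 e
    · obtain ⟨e, rfl⟩ := h
      exact hnode12 e (hnode1 e)
    · exact hoff2 Q fun e he => h ⟨e, he⟩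
  have hD2 : ∀ P : Place Qbar ↥(modularFunctionFieldBar (M * q)),
      (n : ℤ) * (D : Divisor Qbar ↥(modularFunctionFieldBar (M * q))) P =
        P.ord (((u2 : F.X.N.R2.O)) : ↥(modularFunctionFieldBar (M * q))) := by
    intro P
    rw [hD P, hu, Fermat.Agent.S18.CoreOrd.ord_const_mul P hc]
  obtain ⟨Δ1, hΔ1, -⟩ := HasPrincipalDivisors.exists_divisor (K := ResidueField ↥A)
    (F.X.N.R1.red (u : F.X.N.R1.O))
    (Fermat.Agent.S34.NodalDisc.red_unit_ne_zero F.X.N.R1.toBranch u)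
  obtain ⟨Δ2, hΔ2, -⟩ := HasPrincipalDivisors.exists_divisor (K := ResidueField ↥A)
    (F.X.N.R2.red (u2 : F.X.N.R2.O))
    (Fermat.Agent.S34.NodalDisc.red_unit_ne_zero F.X.N.R2.toBranch u2)
  refine mem_finRedN.mpr ⟨⟨Fermat.Agent.S44.Core.DimCount.fl n Δ1, D, u, rfl, hD, fun Q => ?_⟩,
    ⟨Fermat.Agent.S44.Core.DimCount.fl n Δ2, D, u2, rfl, hD2, fun Q => ?_⟩⟩
  · rw [Fermat.Agent.S44.Core.DimCount.fl_apply, hΔ1 Q]
    exact (Int.mul_ediv_cancel' (hall1 Q)).symm
  · rw [Fermat.Agent.S44.Core.DimCount.fl_apply, hΔ2 Q]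
    exact (Int.mul_ediv_cancel' (hall2 Q)).symm

end Fermat.Agent.S43.T1.Fin.HnnN

end
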