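/-
PROJECT R (S43), block T1 (helper26): the bridges from `T1/Fin/HnnN` to the literals of the seam of
the block (`T1/Seam.lean`, helper18): `FinOfNodeOrdN` and `HasOffRepN`, at any torsion order
`n > 0`, for every chart frame with the local node hypotheses and the local count.
-/
import Fermat.Agent.S43.T1.Fin.HnnN
import Fermat.Agent.S43.T1.Seam

set_option autoImplicit false
set_option linter.unusedSectionVars false
set_option linter.unusedVariables false
set_option linter.style.haveILetI false
set_option synthInstance.maxHeartbeats 400000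

noncomputable section

namespace Fermat.Agent.S43.T1.Fin.HnnSeam

open ModularCurve AlgebraicCurve IsLocalRing
open Fermat.Agent.S34.NodalDefs Fermat.Agent.S34.CoreZX0Datum
open Fermat.Agent.S33.X0.Frame
open Fermat.Agent.S44.Core.NodeOrd Fermat.Agent.S44.Core.FrameHyp
open Fermat.Agent.S44.X0.FrameAll
open Fermat.Agent.S43.T1.Fin.RedN Fermat.Agent.S43.T1.Fin.HnnN Fermat.Agent.S43.T1.Seam

local notation "Qbar" => AlgebraicClosure ℚ

attribute [local instance 2000] Fermat.Agent.S34.EulerX0.algResFk

variable {q : ℕ} [hq : Fact q.Prime] {M : ℕ} [NeZero M] {A : ValuationSubring Qbar} [NeZero q]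
variable {hA : A.LiesOverPrime q} {hqM : ¬ q ∣ M}

local instance instNeZeroMul : NeZero (M * q) :=
  ⟨Nat.mul_ne_zero (NeZero.ne M) (NeZero.ne q)⟩

variable {F : ChartFrame hA hqM} {n : ℕ}

/-- **`FinOfNodeOrdN`**: vanishing node orders at level `n` give both reductions. -/
theorem finOfNodeOrdN (hn : 0 < n) (Y : NodeHyp F) (hLC : HasLocalCount F Y) :
    FinOfNodeOrdN F n := by
  rintro x ⟨D, u, rfl, hD, ha⟩
  refine mem_finRedN_of_dvd_nodes hn Y hLC D u hD fun e => ?_
  have h := ha e
  rw [Pi.zero_apply] at h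
  exact (ZMod.intCast_zmod_eq_zero_iff_dvd _ n).mp h.symm

/-- **`HasOffRepN`**: every `n`-torsion class has a representative with the non-node clause (at
EVERY place which is not a node; the seam only asks for the places which are not cusps). -/
theorem hasOffRepN (hn : 0 < n) (Y : NodeHyp F) (hLC : HasLocalCount F Y) (x : JZero (M * q))
    (hx : n • x = 0) : HasOffRepN F n x := by
  obtain ⟨D, u, hDx, hD, hoff⟩ := exists_offRepN hn Y hLC x hx
  exact ⟨D, u, hDx, hD, fun Q hQ _ => hoff Q hQ⟩

/-- the same from a `StdFrame` -/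
theorem finOfNodeOrdN_of_stdFrame (hn : 0 < n) (SF : StdFrame F) : FinOfNodeOrdN F n :=
  finOfNodeOrdN hn SF.Y SF.lc

theorem hasOffRepN_of_stdFrame (hn : 0 < n) (SF : StdFrame F) (x : JZero (M * q))
    (hx : n • x = 0) : HasOffRepN F n x :=
  hasOffRepN hn SF.Y SF.lc x hx

end Fermat.Agent.S43.T1.Fin.HnnSeam

end
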