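/-
PROJECT R (S43), block T1, brick (b) (helper26): FROM THE SPECIAL FIBRE OF LEVEL `M` AT `q` BACK TO
`J₀(M)(ℚ̄)[p]`, with the residue prime `q` and the torsion prime `p` SEPARATED.

Twin of `S44/Fin/KummerX0.exists_eigenvector` / `exists_tate_eigenvector` (there `q = p`).  The
abstract engine `S44/Alg/KummerLift.exists_eigenvector` is general; the inputs at the frame prime
`q` (Frobenius elements, the finite group of Frobenius-fixed points of the special fibre, stability
of the kernel of the reduction under `T_l`, `l ∤ M`) and at the torsion prime `p` (divisibility,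
finiteness of `J₀(M)[p]`, commutativity of the Hecke operators on `p`-power torsion) are main's.

* `exists_eigenvector`, `exists_tate_eigenvector`, `kummerN : Seam.KummerN`.
-/
import Fermat.Agent.S44.Fin.KummerX0
import Fermat.Agent.S43.T1.Seam

set_option autoImplicit false
set_option linter.unusedSectionVars false
set_option linter.style.haveILetI false

noncomputable section

namespace Fermat.Agent.S43.T1.Fin.KummerN

open ModularCurve
open Fermat.Agent.S30.Padic.TateModule
open Fermat.Agent.S44.Fin.KummerX0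

local notation "Kb" => AlgebraicClosure ℚ
local notation "GQ" => (AlgebraicClosure ℚ ≃ₐ[ℚ] AlgebraicClosure ℚ)

section Eigen

variable {q : ℕ} [Fact q.Prime] {p : ℕ} [Fact p.Prime] {M : ℕ} [NeZero M]

/-- **(X5') at `X₀(M)`, frame prime `q`, torsion prime `p`.**  ANY point of `J₀(M)(ℚ̄)` whose
reduction at `A ∣ q` is a non-zero joint eigenvector killed by `p` (relation form) gives a non-zero
joint eigenvector in `J₀(M)(ℚ̄)[p]`. -/
theorem exists_eigenvector (hqM : ¬ q ∣ M) (A : ValuationSubring Kb) (hA : A.LiesOverPrime q)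
    (good : Set ℕ) (hgood : ∀ l ∈ good, ¬ l ∣ M) (a : ℕ → ℤ)
    (z : JZero M) (hz : reductionModL A M z ≠ 0) (hpz : p • reductionModL A M z = 0)
    (heig : ∀ y : JZero M, reductionModL A M y = reductionModL A M z →
      ∀ (l : ℕ) (hl : l.Prime), l ∈ good →
        reductionModL A M (heckeOperatorBar M ⟨l, hl⟩ y) = a l • reductionModL A M y) :
    ∃ w : JZero M, w ≠ 0 ∧ p • w = 0 ∧ ∀ (l : ℕ) (hl : l.Prime), l ∈ good →
      heckeOperatorBar M ⟨l, hl⟩ w = a l • w := by
  classical
  have hp : p.Prime := Fact.out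
  have hq : q.Prime := Fact.out
  -- a Frobenius element at `q` and a power of it fixing `z`
  obtain ⟨σ0, hσ0⟩ :=
    Fermat.Agent.Lib.FrobeniusExists.exists_isFrobeniusAt_algebraicClosure A hq hA
  obtain ⟨f, hf, hfz⟩ := exists_pow_smul_eq M σ0 z
  obtain ⟨e, he, hexp⟩ := Fermat.Agent.S15.P.FrobFixed.Red.exists_exponent A hA hqM hf
  -- the family
  let I := {r : Nat.Primes // (r : ℕ) ∈ good}
  let T : I → Module.End ℤ (JZero M) := fun i => heckeOperatorBar M i.1
  let σ : JZero M →+ JZero M := DistribSMul.toAddMonoidHom (JZero M) (σ0 ^ f)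
  have hσ : ∀ x, σ x = (σ0 ^ f) • x := fun _ => rfl
  -- commutativity on the `p`-torsion: one of the two primes is `≠ p`, or they are equal
  have hcomm : ∀ (i j : I) (x : JZero M), p • x = 0 → T i (T j x) = T j (T i x) := by
    intro i j x hx
    have hx' : ∃ m : ℕ, p ^ m • x = 0 := ⟨1, by rw [pow_one]; exact hx⟩
    by_cases hi : ((i.1 : Nat.Primes) : ℕ) = p
    · by_cases hj : ((j.1 : Nat.Primes) : ℕ) = p
      · have hij : i.1 = j.1 := Subtype.ext (hi.trans hj.symm)
        show heckeOperatorBar M i.1 (heckeOperatorBar M j.1 x) =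
          heckeOperatorBar M j.1 (heckeOperatorBar M i.1 x)
        rw [hij]
      · exact Fermat.Agent.S15.G.HeckeComm.hecke_comm_torsion' M hp i.1 j.1
          (Or.inr ⟨hgood _ j.2, hj⟩) hx'
    · exact Fermat.Agent.S15.G.HeckeComm.hecke_comm_torsion' M hp i.1 j.1
        (Or.inl ⟨hgood _ i.2, hi⟩) hx'
  obtain ⟨w, hw0, hpw, hweig⟩ := Fermat.Agent.S44.Alg.KummerLift.exists_eigenvector
    (reductionModL A M) p hp T (fun i => a (i.1 : ℕ)) σ hcomm
    (fun i x => by
      rw [hσ, hσ]
      exact Fermat.Agent.S30.Arith.HeckeGalois.heckeOperatorBar_smul M i.1 (σ0 ^ f) x)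
    (fun i x hx => Fermat.Agent.S15.A.HeckeRedC.reductionModL_heckeOperatorBar_eq_zero M hqM A hA
      i.1 (hgood _ i.2) x hx)
    (fun y => Fermat.Agent.S17.Div.exists_nsmul_eq M p hp.ne_zero y)
    (Fermat.Agent.S30.Descent.PhiDictThm.finite_torsion M hp.ne_zero)
    (reductionModL A M z) hz hpz
    (fun y hy i => by
      have h2 := heig y hy (i.1 : ℕ) i.1.2 i.2
      have h3 : (⟨(i.1 : ℕ), i.1.2⟩ : Nat.Primes) = i.1 := Subtype.ext rfl
      rw [h3] at h2
      rw [map_sub, map_zsmul, h2, sub_self])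
    ⟨z, rfl, by rw [hσ]; exact hfz⟩
    ⟨e, he, fun x hx => hexp σ0 hσ0 x (by rw [← hσ, hx])⟩
  refine ⟨w, hw0, hpw, fun l hl hlg => ?_⟩
  exact hweig ⟨⟨l, hl⟩, hlg⟩

/-- **(X5'), Tate form**, frame prime `q`, torsion prime `p`. -/
theorem exists_tate_eigenvector (hqM : ¬ q ∣ M) (A : ValuationSubring Kb)
    (hA : A.LiesOverPrime q) (good : Set ℕ) (hgood : ∀ l ∈ good, ¬ l ∣ M) (a : ℕ → ℤ)
    (z : JZero M) (hz : reductionModL A M z ≠ 0) (hpz : p • reductionModL A M z = 0)
    (heig : ∀ y : JZero M, reductionModL A M y = reductionModL A M z →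
      ∀ (l : ℕ) (hl : l.Prime), l ∈ good →
        reductionModL A M (heckeOperatorBar M ⟨l, hl⟩ y) = a l • reductionModL A M y) :
    ∃ w : Tp p (JZero M), w.1 1 ≠ 0 ∧ ∀ (l : ℕ) (hl : l.Prime), l ∈ good →
      heckeOperatorBar M ⟨l, hl⟩ (w.1 1) = a l • w.1 1 := by
  have hp : p.Prime := Fact.out
  obtain ⟨w, hw0, hpw, hweig⟩ := exists_eigenvector hqM A hA good hgood a z hz hpz heig
  obtain ⟨x, hx⟩ := Fermat.Agent.S58.TateNonzero.exists_tp_apply_one p
    (fun k y hy => by
      obtain ⟨y', hy'⟩ := Fermat.Agent.S17.Div.exists_nsmul_eq M p hp.ne_zero y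
      exact ⟨y', hy', by rw [pow_succ, mul_smul, hy', hy]⟩) w hpw
  exact ⟨x, by rw [hx]; exact hw0, fun l hl hlg => by rw [hx]; exact hweig l hl hlg⟩

end Eigen

/-- **`KummerN`**, the literal of the seam of the block. -/
theorem kummerN : Fermat.Agent.S43.T1.Seam.KummerN := by
  intro q _ p _ M _ hqM A hA good hgood a z hz hpz heig
  exact exists_tate_eigenvector hqM A hA good (fun l hl => (hgood l hl).1) a z hz hpz heig

end Fermat.Agent.S43.T1.Fin.KummerN

end
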